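import Fermat.Agent.SelbergLindelof.Windows
import Fermat.Agent.VonKoch.Bounds

/-!
# Few zeros to the right of the line make the logarithm small there

The zeros near `σ₀ + it` are divided out; the logarithm of what is left is bounded near the centre
and `O (log |t|)` near the edge, so `o (log |t|)` between, by the theorem of the three circles.
-/

set_option autoImplicit false

noncomputable section

open Complex Filter Topology Metric Set
open scoped Real
open FA.DegreeGap (HasFunctionalEquation pt pt_re pt_im)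
open FA.SelbergClass (HasEulerProduct)
open FA.SelbergZeroCount (exists_right_lower exists_strip_bound)
open FA.RiemannMangoldt (rootProd norm_rootProd_le le_norm_rootProd)

namespace FA.SelbergLindelof

variable {a : ℕ → ℂ} {m : ℕ} {E : ℂ → ℂ} {r : ℕ} {lam : Fin r → ℝ} {mu : Fin r → ℂ} {Q : ℝ}
  {omega : ℂ}

/-- The zeros in a disc round `c` are covered by the windows. -/
theorem card_le_windows (h : HasFunctionalEquation a m E lam mu Q omega) (he : HasEulerProduct a)
    {c : ℂ} {σ R : ℝ} {K : ℕ} (hK : R ≤ K) (Z : Multiset ℂ)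
    (hmem : ∀ x ∈ Z, E (c + x) = 0 ∧ σ ≤ (c + x).re ∧ |x.im| ≤ R)
    (hord : ∀ x ∈ Z, analyticOrderNatAt E (c + x) = Z.count x) :
    Multiset.card Z ≤ ∑ j ∈ Finset.range (K + 1), winCount E σ (c.im - R + j * 2) := by
  classical
  have e : Multiset.card Z =
      ∑ ρ ∈ Z.toFinset.image (c + ·), analyticOrderNatAt E ρ := by
    rw [Finset.sum_image fun x _ y _ e => add_left_cancel e, ← Multiset.toFinset_sum_count_eq]
    exact Finset.sum_congr rfl fun x hx => (hord x (Multiset.mem_toFinset.1 hx)).symm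
  rw [e]
  refine (sum_le_sum_cover _ (Finset.range (K + 1))
    (fun j ρ => ρ ∈ winSet E σ (c.im - R + j * 2)) _ fun ρ hρ => ?_).trans
    (Finset.sum_le_sum fun j _ => sum_le_winCount h he fun ρ hρ => (Finset.mem_filter.1 hρ).2)
  obtain ⟨x, hx, rfl⟩ := Finset.mem_image.1 hρ
  obtain ⟨h0, hre, him⟩ := hmem x (Multiset.mem_toFinset.1 hx)
  rw [abs_le] at him
  obtain ⟨j, hj, hjd⟩ := exists_step (x := x.im + R) (h := 2) (K := K) (by linarith) two_pos
    (by linarith)
  rw [abs_le] at hjd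
  rcases le_or_gt (x.im + R) (j * 2 + 1) with hle | hgt
  · rcases le_or_gt ((j : ℝ) * 2 - 1) (x.im + R) with hge | hlt
    · exact ⟨j, hj, h0, hre, by rw [add_im, abs_le]; constructor <;> linarith⟩
    · rcases Nat.eq_zero_or_pos j with rfl | hpos
      · norm_num at hlt
        linarith
      refine ⟨j - 1, Finset.mem_range.2 (by have := Finset.mem_range.1 hj; omega), h0, hre, ?_⟩
      rw [add_im, abs_le, Nat.cast_sub hpos, Nat.cast_one]
      constructor <;> linarith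
  · have hjK : j + 1 < K + 1 := by
      have : (j : ℝ) < K := by linarith
      have : j < K := by exact_mod_cast this
      omega
    refine ⟨j + 1, Finset.mem_range.2 hjK, h0, hre, ?_⟩
    rw [add_im, abs_le, Nat.cast_succ]
    constructor <;> linarith

/-- From the modulus to the real part of the logarithm. -/
theorem re_le_of_bound {u w v : ℂ} {A b : ℝ} {N : ℕ} (hb : 0 < b) (hu : 1 / 2 ≤ b ^ N * ‖u‖)
    (he : v = u * Complex.exp w) (hv : ‖v‖ ≤ A * 2 ^ N) :
    w.re ≤ Real.log (2 * A) + N * Real.log (2 * b) := by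
  rw [he, norm_mul, Complex.norm_exp] at hv
  have h1 : Real.exp w.re * (1 / 2) ≤ A * (2 * b) ^ N :=
    (mul_le_mul_of_nonneg_left hu (Real.exp_pos _).le).trans (le_of_eq_of_le (by ring)
      ((mul_le_mul_of_nonneg_left hv (pow_nonneg hb.le N)).trans_eq (by rw [mul_pow]; ring)))
  have hA : 0 < A := by
    have := (mul_pos (Real.exp_pos w.re) one_half_pos).trans_le h1
    exact pos_of_mul_pos_left this (by positivity)
  rw [← Real.log_pow, ← Real.log_mul (by positivity) (by positivity),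
    Real.le_log_iff_exp_le (by positivity)]
  linarith

/-- The disc round `σ₀ + it` with its zeros divided out. -/
theorem exists_disc_log (h : HasFunctionalEquation a m E lam mu Q omega)
    (he : HasEulerProduct a) :
    ∃ σ₀ A S : ℝ, ∃ k K : ℕ, 2 ≤ σ₀ ∧ 1 ≤ A ∧ 1 / 2 ≤ S ∧
      (∀ s : ℂ, σ₀ ≤ s.re → 1 / 2 ≤ ‖lVal E m s‖) ∧
      (∀ s : ℂ, 3 / 2 ≤ s.re → ‖lVal E m s‖ ≤ S) ∧
      ∀ δ t : ℝ, 0 < δ → δ ≤ 1 / 2 → σ₀ + 1 ≤ |t| →
        ∃ (Z : Multiset ℂ) (g : ℂ → ℂ) (u : ℂ),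
          Multiset.card Z ≤ ∑ j ∈ Finset.range (K + 1),
            winCount E (1 / 2 + δ / 4) (t - σ₀ + j * 2) ∧
          (∀ x ∈ Z, E (pt σ₀ t + x) = 0 ∧ 1 / 2 + δ / 4 ≤ (pt σ₀ t + x).re ∧ |x.im| < σ₀) ∧
          DifferentiableOn ℂ g (ball 0 (σ₀ - 1 / 2 - δ / 4)) ∧ ‖u‖ ≤ S ∧
          1 / 2 ≤ σ₀ ^ Multiset.card Z * ‖u‖ ∧
          (∀ x ∈ Z, ‖x‖ ≤ σ₀) ∧
          (∀ z : ℂ, ‖z‖ < σ₀ - 1 / 2 - δ / 4 →
            lVal E m (pt σ₀ t + z) = rootProd Z z * (u * Complex.exp (g z))) ∧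
          (∀ z : ℂ, ‖z‖ = 1 / 4 →
            ‖g z‖ ≤ 2 * (Real.log (2 * S) + Multiset.card Z * Real.log (2 * σ₀) + 1)) ∧
          ∀ z : ℂ, ‖z‖ = σ₀ - 1 / 2 - δ / 2 → ‖g z‖ ≤ 8 * σ₀ / δ *
            (Real.log (2 * (A * (2 * |t|) ^ k)) + Multiset.card Z * Real.log (2 * σ₀) + 1) := by
  obtain ⟨σ₀, h2, hlow⟩ := exists_right_lower h he.map_one
  obtain ⟨k, C, hC, hpoly⟩ := exists_strip_bound h (A := -1) (B := 2 * σ₀ + 1) (by norm_num)
    (by linarith)
  obtain ⟨S, hSdef⟩ : ∃ S, S = max (∑' n, ‖LSeries.term a ((3 / 2 : ℝ) : ℂ) n‖) (1 / 2) :=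
    ⟨_, rfl⟩
  have hup : ∀ s : ℂ, 3 / 2 ≤ s.re → ‖lVal E m s‖ ≤ S := fun s hs => by
    rw [lVal_eq_series h (by linarith)]
    exact (FA.DegreeGap.norm_lSeries_le (h.summable ((3 / 2 : ℝ) : ℂ) (by norm_num)) hs).trans
      (hSdef ▸ le_max_left _ _)
  refine ⟨σ₀, C + 1, S, k, ⌈σ₀⌉₊, h2, by linarith, hSdef ▸ le_max_right _ _, fun s hs => ?_, hup,
    fun δ t hδ hδ2 ht => ?_⟩
  · rw [lVal_eq_series h (by linarith)]
    exact (hlow s hs).trans (Complex.re_le_norm _)
  obtain ⟨c, hc⟩ : ∃ c, c = pt σ₀ t := ⟨_, rfl⟩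
  have hre : c.re = σ₀ := by rw [hc, pt_re]
  have him : c.im = t := by rw [hc, pt_im]
  have hlowc : 1 / 2 ≤ ‖lVal E m c‖ := by
    rw [lVal_eq_series h (by linarith)]
    exact (hlow c hre.ge).trans (Complex.re_le_norm _)
  obtain ⟨B, hB⟩ : ∃ B, B = (C + 1) * (2 * |t|) ^ k := ⟨_, rfl⟩
  have hB0 : 0 ≤ B := hB ▸ by positivity
  have hedge : ∀ z : ℂ, ‖z‖ = σ₀ → ‖lVal E m (c + z)‖ ≤ B := fun z hz => by
    have k1 := abs_le.1 ((Complex.abs_re_le_norm z).trans hz.le)
    have k2 := (Complex.abs_im_le_norm z).trans hz.le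
    have him' : |(c + z).im| ≤ |t| + σ₀ := by
      rw [add_im, him]
      exact (abs_add_le _ _).trans (by linarith)
    have hlo : 1 ≤ |(c + z).im| := by
      rw [add_im, him]
      have := abs_sub_abs_le_abs_sub t (-z.im)
      rw [sub_neg_eq_add, abs_neg] at this
      linarith
    have hd1 : 1 ≤ ‖c + z - 1‖ := hlo.trans (by
      simpa using Complex.abs_im_le_norm (c + z - 1))
    rw [lVal, norm_div, norm_pow, hB]
    refine ((div_le_self (norm_nonneg _) (one_le_pow₀ hd1)).trans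
      (hpoly _ (by rw [add_re, hre]; linarith) (by rw [add_re, hre]; linarith))).trans
      (mul_le_mul (by linarith) (pow_le_pow_left₀ (by positivity) (by linarith) k)
        (by positivity) (by linarith))
  obtain ⟨Z, f, hf, hfe, hZ, hne, -, hord⟩ := exists_disc h (c := c) (R := σ₀ + 1) (r₀ := σ₀)
    (r₁ := σ₀ - 1 / 2 - δ / 4) (B := 2 * B) (by linarith) (by linarith) (by linarith)
    (by rw [him]; exact ht) (norm_pos_iff.1 (lt_of_lt_of_le one_half_pos hlowc))
    fun z hz => (hedge z hz).trans (le_of_eq_of_le (by ring)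
      (mul_le_mul_of_nonneg_left hlowc (by positivity : 0 ≤ 2 * B)))
  have hzero : ∀ x ∈ Z, E (c + x) = 0 ∧ 1 / 2 + δ / 4 ≤ (c + x).re ∧
      |x.im| ≤ σ₀ - 1 / 2 - δ / 4 := fun x hx => by
    refine ⟨?_, ?_, (Complex.abs_im_le_norm x).trans (hZ x hx)⟩
    · have h0 : lVal E m (c + x) = 0 := by
        rw [hfe, mul_eq_zero, rootProd, Multiset.prod_eq_zero_iff]
        exact Or.inl (Multiset.mem_map.2 ⟨x, hx, sub_self _⟩)
      refine (lVal_eq_zero_iff ?_).1 h0
      intro e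
      have := congrArg Complex.im e
      rw [add_im, him, one_im] at this
      have := (Complex.abs_im_le_norm x).trans (hZ x hx)
      rw [show x.im = -t by linarith, abs_neg] at this
      linarith
    · rw [add_re, hre]
      linarith [(abs_le.1 ((Complex.abs_re_le_norm x).trans (hZ x hx))).1]
  have hleft : ∀ x ∈ Z, x.re ≤ 1 - σ₀ := fun x hx => by
    have := re_le_one_of_zero h he (hzero x hx).1
    rw [add_re, hre] at this
    linarith
  obtain ⟨N, hN⟩ : ∃ N, N = Multiset.card Z := ⟨_, rfl⟩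
  obtain ⟨g, hg0, hgd, hgexp⟩ := FA.DLVP.exists_log (R := σ₀ - 1 / 2 - δ / 4) (by linarith)
    (hf.mono (ball_subset_ball (by linarith))) (fun z hz => hne z (mem_ball_zero_iff.1 hz).le)
  have hgdiff : DifferentiableOn ℂ g (ball 0 (σ₀ - 1 / 2 - δ / 4)) := fun z hz =>
    (hgd z hz).differentiableAt.differentiableWithinAt
  have hu1 : 1 / 2 ≤ σ₀ ^ N * ‖f 0‖ := by
    refine hlowc.trans ?_
    rw [← add_zero c, hfe, norm_mul, hN]
    exact mul_le_mul_of_nonneg_right (norm_rootProd_le (by linarith) fun x hx => by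
      rw [zero_sub, norm_neg]
      linarith [hZ x hx]) (norm_nonneg _)
  have hu2 : ‖f 0‖ ≤ S := by
    have k := hup c (by linarith)
    rw [← add_zero c, hfe, norm_mul] at k
    refine le_trans (le_mul_of_one_le_left (norm_nonneg _) ?_) k
    refine (one_pow (Multiset.card Z)).symm.trans_le (le_norm_rootProd zero_le_one fun x hx => ?_)
    rw [zero_sub, norm_neg]
    linarith [(abs_le.1 (Complex.abs_re_le_norm x)).1, hleft x hx]
  have hS : 1 / 2 ≤ S := hSdef ▸ le_max_right _ _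
  have hP0 : 0 ≤ (N : ℝ) * Real.log (2 * σ₀) :=
    mul_nonneg (Nat.cast_nonneg N) (Real.log_nonneg (by linarith))
  -- the factor without zeros
  have hfac : ∀ (z : ℂ) (M : ℝ), 0 ≤ M → ‖lVal E m (c + z)‖ ≤ M →
      (∀ x ∈ Z, 1 / 2 ≤ ‖z - x‖) → ‖f z‖ ≤ M * 2 ^ N := fun z M hM hv hd => by
    rw [hfe, norm_mul] at hv
    have h1 := (mul_le_mul_of_nonneg_right (le_norm_rootProd (by norm_num) hd)
      (norm_nonneg (f z))).trans hv
    rw [← hN, one_div, inv_pow, inv_mul_le_iff₀ (by positivity)] at h1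
    linarith
  refine ⟨Z, g, f 0, ?_, fun x hx => ⟨hc ▸ (hzero x hx).1, hc ▸ (hzero x hx).2.1,
    lt_of_le_of_lt (hzero x hx).2.2 (by linarith)⟩, hgdiff, hu2, hN ▸ hu1,
    fun x hx => (hZ x hx).trans (by linarith), fun z hz => ?_, fun z hz => ?_, fun z hz => ?_⟩
  · rw [← him]
    exact card_le_windows h he (Nat.le_ceil σ₀) Z
      (fun x hx => ⟨(hzero x hx).1, (hzero x hx).2.1, (hzero x hx).2.2.trans (by linarith)⟩)
      fun x hx => by
        rw [hord (c + x) (by rw [add_sub_cancel_left]; exact hZ x hx), add_sub_cancel_left]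
  · rw [← hc, hfe, hgexp z (mem_ball_zero_iff.2 hz)]
  · -- near the centre
    rw [← hN]
    refine (borelCaratheodory_zero (R := 1 / 2)
      (M := Real.log (2 * S) + N * Real.log (2 * σ₀) + 1)
      (by linarith [Real.log_nonneg (show (1 : ℝ) ≤ 2 * S by linarith)])
      (hgdiff.mono (ball_subset_ball (by linarith))) (fun w hw => ?_) (by norm_num)
      (mem_ball_zero_iff.2 (by rw [hz]; norm_num)) hg0).trans_eq ?_
    · rw [mem_ball_zero_iff] at hw
      obtain ⟨k1, -⟩ := abs_le.1 ((Complex.abs_re_le_norm w).trans hw.le)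
      have k3 := re_le_of_bound (A := S) (by linarith : 0 < σ₀) hu1
        (hgexp w (mem_ball_zero_iff.2 (by linarith)))
        (hfac w S (by linarith) (hup _ (by rw [add_re, hre]; linarith)) fun x hx => by
          have := (le_abs_self _).trans (Complex.abs_re_le_norm (w - x))
          rw [sub_re] at this
          linarith [hleft x hx])
      show (g w).re ≤ _
      linarith
    · rw [hz]
      ring
  · -- near the edge
    obtain ⟨M, hM⟩ : ∃ M, M = Real.log (2 * B) + N * Real.log (2 * σ₀) + 1 := ⟨_, rfl⟩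
    rw [← hN, ← hB, ← hM]
    have hBpos : 1 ≤ 2 * B := by
      have : (1 : ℝ) ≤ (C + 1) * (2 * |t|) ^ k :=
        one_le_mul_of_one_le_of_one_le (by linarith) (one_le_pow₀ (by linarith))
      rw [hB]
      linarith
    have hM0 : 0 < M := by linarith [Real.log_nonneg hBpos]
    refine (borelCaratheodory_zero (R := σ₀ - 1 / 2 - δ / 4) (M := M) hM0 hgdiff (fun w hw => ?_)
      (by linarith) (mem_ball_zero_iff.2 (by rw [hz]; linarith)) hg0).trans ?_
    · have hall : ‖f w‖ ≤ B * 2 ^ N := by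
        refine FA.DLVP.norm_le_of_sphere (closedBall_subset_ball (show σ₀ < σ₀ + 1 by linarith))
          (by linarith) hf (fun v hv => ?_) (mem_closedBall_zero_iff.2 (by
            linarith [mem_ball_zero_iff.1 hw]))
        rw [mem_sphere_zero_iff_norm] at hv
        exact hfac v B hB0 (hedge v hv) fun x hx => by
          linarith [norm_sub_norm_le v x, hZ x hx]
      have k3 := re_le_of_bound (A := B) (by linarith : 0 < σ₀) hu1 (hgexp w hw) hall
      show (g w).re ≤ _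
      linarith
    · rw [hz, show σ₀ - 1 / 2 - δ / 4 - (σ₀ - 1 / 2 - δ / 2) = δ / 4 by ring]
      calc 2 * M * (σ₀ - 1 / 2 - δ / 2) / (δ / 4) ≤ 2 * M * σ₀ / (δ / 4) :=
            div_le_div_of_nonneg_right (mul_le_mul_of_nonneg_left (by linarith) (by linarith))
              (by linarith)
        _ = 8 * σ₀ / δ * M := by field_simp; ring

/-- **With few zeros the bounds on `re s ≥ 1/2 + δ`.** -/
theorem exists_small_log (h : HasFunctionalEquation a m E lam mu Q omega) (he : HasEulerProduct a)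
    {δ : ℝ} (hδ : 0 < δ) (hδ2 : δ ≤ 1 / 2)
    (hS : ∀ η : ℝ, 0 < η → ∃ T₀ : ℝ, ∀ T : ℝ, T₀ ≤ |T| →
      (winCount E (1 / 2 + δ / 4) T : ℝ) ≤ η * Real.log |T|) {ε : ℝ} (hε : 0 < ε) :
    ∃ σ₀ T₁ : ℝ, 1 ≤ T₁ ∧ ∀ σ t : ℝ, 1 / 2 + δ ≤ σ → T₁ ≤ |t| →
      ‖lVal E m (pt σ t)‖ ≤ |t| ^ ε ∧
      ((∀ ρ, E ρ = 0 → 1 / 2 < ρ.re → |ρ.im| ≤ |t| - σ₀) →
        |t| ^ (-ε) ≤ ‖lVal E m (pt σ t)‖) := by
  obtain ⟨σ₀, A, S, k, K, h2, hA, hS2, hlow, hup, hdisc⟩ := exists_disc_log h he
  obtain ⟨P, hP⟩ : ∃ P, P = Real.log (2 * σ₀) := ⟨_, rfl⟩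
  have hP0 : 0 < P := hP ▸ Real.log_pos (by linarith)
  obtain ⟨α, hα⟩ : ∃ α, α = (Real.log (σ₀ - 1 / 2 - δ) - Real.log (1 / 4)) /
      (Real.log (σ₀ - 1 / 2 - δ / 2) - Real.log (1 / 4)) := ⟨_, rfl⟩
  have hl12 : Real.log (1 / 4) < Real.log (σ₀ - 1 / 2 - δ) :=
    Real.log_lt_log (by norm_num) (by linarith)
  have hl23 : Real.log (σ₀ - 1 / 2 - δ) < Real.log (σ₀ - 1 / 2 - δ / 2) :=
    Real.log_lt_log (by linarith) (by linarith)
  have hα0 : 0 ≤ α := hα ▸ div_nonneg (by linarith) (by linarith)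
  have hα1 : α < 1 := by rw [hα, div_lt_one (by linarith)]; linarith
  obtain ⟨D, hD⟩ : ∃ D, D = 8 * σ₀ / δ * (3 * k + 3) := ⟨_, rfl⟩
  have hD0 : 0 < D := hD ▸ by positivity
  obtain ⟨e, hedef⟩ : ∃ e, e = min ε ((ε / 2 / D ^ α) ^ (1 / (1 - α))) := ⟨_, rfl⟩
  have hK' : 0 < D ^ α := Real.rpow_pos_of_pos hD0 _
  have he0 : 0 < e := hedef ▸ lt_min hε (Real.rpow_pos_of_pos (by positivity) _)
  have heε : e ≤ ε := hedef ▸ min_le_left _ _
  have he1 : e ^ (1 - α) * D ^ α ≤ ε / 2 := by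
    rw [← le_div_iff₀ hK']
    refine (Real.rpow_le_rpow he0.le (hedef ▸ min_le_right _ _) (by linarith)).trans_eq ?_
    rw [← Real.rpow_mul (by positivity), one_div_mul_cancel (by linarith), Real.rpow_one]
  obtain ⟨η, hη⟩ : ∃ η, η = min (e / 4) 1 / (2 * (K + 1) * P) := ⟨_, rfl⟩
  have hη0 : 0 < η := hη ▸ div_pos (lt_min (by linarith) one_pos) (by positivity)
  obtain ⟨T₀, hT₀⟩ := hS η hη0
  obtain ⟨c₁, hc₁⟩ : ∃ c₁, c₁ = |Real.log (2 * S)| + 1 + |Real.log (2 * A)| + Real.log 2 :=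
    ⟨_, rfl⟩
  have hc₁0 : 0 < c₁ := by rw [hc₁]; have := Real.log_pos one_lt_two; positivity
  obtain ⟨T₁, hT₁⟩ : ∃ T₁, T₁ = max (max (|T₀| + 2 * K + 2 * σ₀ + 6) (Real.exp (4 * c₁ / e)))
      (Real.exp (max 1 c₁)) := ⟨_, rfl⟩
  have hT1one : 1 ≤ T₁ := by
    rw [hT₁]
    exact le_max_of_le_right (Real.one_le_exp (zero_le_one.trans (le_max_left _ _)))
  refine ⟨σ₀, T₁, hT1one, fun σ t hσ ht => ?_⟩
  rw [hT₁] at ht
  have htbig : |T₀| + 2 * K + 2 * σ₀ + 6 ≤ |t| :=
    (le_max_left _ _).trans ((le_max_left _ _).trans ht)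
  have ht1 : (1 : ℝ) ≤ |t| := by linarith [abs_nonneg T₀, Nat.cast_nonneg (α := ℝ) K]
  have htwo : 2 * |t| ≤ |t| ^ 2 := by
    rw [sq]
    exact mul_le_mul_of_nonneg_right (by linarith [abs_nonneg T₀, Nat.cast_nonneg (α := ℝ) K])
      (abs_nonneg t)
  obtain ⟨L, hL⟩ : ∃ L, L = Real.log |t| := ⟨_, rfl⟩
  have hL1 : max 1 c₁ ≤ L :=
    hL ▸ (Real.le_log_iff_exp_le (by linarith)).2 ((le_max_right _ _).trans ht)
  have hLc : 4 * c₁ ≤ e * L := by
    have := hL ▸ (Real.le_log_iff_exp_le (by linarith)).2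
      ((le_max_right _ _).trans ((le_max_left _ _).trans ht))
    rwa [div_le_iff₀ he0, mul_comm L] at this
  have hLε : 4 * c₁ ≤ ε * L := hLc.trans
    (mul_le_mul_of_nonneg_right heε (by linarith [le_max_left (1 : ℝ) c₁]))
  have hpow : ∀ x : ℝ, |t| ^ x = Real.exp (x * L) := fun x => by
    rw [hL, Real.rpow_def_of_pos (by linarith), mul_comm]
  have hlS : Real.log 2 ≤ c₁ ∧ |Real.log (2 * S)| + 1 + |Real.log (2 * A)| ≤ c₁ := by
    rw [hc₁]
    constructor <;>
      linarith [abs_nonneg (Real.log (2 * S)), abs_nonneg (Real.log (2 * A)),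
        Real.log_pos one_lt_two]
  have hhalf : (1 / 2 : ℝ) = Real.exp (-Real.log 2) := by
    rw [Real.exp_neg, Real.exp_log two_pos, one_div]
  -- far to the right
  rcases le_or_gt σ₀ σ with hbig | hσ0
  · refine ⟨(hup _ (by rw [pt_re]; linarith)).trans ?_, fun _ =>
      le_trans ?_ (hlow _ (by rw [pt_re]; exact hbig))⟩
    · rw [hpow]
      calc S ≤ 2 * S := by linarith
        _ = Real.exp (Real.log (2 * S)) := (Real.exp_log (by linarith)).symm
        _ ≤ _ := Real.exp_le_exp.2 (by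
          linarith [le_abs_self (Real.log (2 * S)), abs_nonneg (Real.log (2 * A)), hlS.2])
    · rw [hpow, hhalf]
      exact Real.exp_le_exp.2 (by linarith [hlS.1])
  obtain ⟨Z, g, u, hcard, hzero, hgd, hu, hu', hZ, hfac, hin, hout⟩ :=
    hdisc δ t hδ hδ2 (by linarith [abs_nonneg T₀, Nat.cast_nonneg (α := ℝ) K])
  obtain ⟨N, hN⟩ : ∃ N, N = Multiset.card Z := ⟨_, rfl⟩
  rw [← hN] at hcard hu' hin hout
  rw [← hP] at hin hout
  have hNη : (N : ℝ) * P ≤ min (e / 4) 1 * L := by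
    have k3 := (Nat.cast_le (α := ℝ)).2 hcard
    rw [Nat.cast_sum] at k3
    have k4 : (N : ℝ) ≤ (K + 1) * (η * (2 * L)) := by
      refine k3.trans ((Finset.sum_le_sum (g := fun _ => η * (2 * L)) fun j hj => ?_).trans_eq ?_)
      · have hj' : (j : ℝ) ≤ K := by exact_mod_cast Nat.lt_succ_iff.1 (Finset.mem_range.1 hj)
        obtain ⟨T, hTdef⟩ : ∃ T, T = t - σ₀ + j * 2 := ⟨_, rfl⟩
        have hdist : |T - t| ≤ σ₀ + 2 * K := by
          rw [hTdef, abs_le]
          constructor <;> linarith [Nat.cast_nonneg (α := ℝ) j]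
        have hT1 : |t| - (σ₀ + 2 * K) ≤ |T| := by
          linarith [abs_sub_abs_le_abs_sub t T, abs_sub_comm T t]
        have hT2 : |T| ≤ 2 * |t| := by
          linarith [abs_sub_abs_le_abs_sub T t, abs_nonneg T₀]
        rw [← hTdef]
        refine (hT₀ T (by linarith [le_abs_self T₀])).trans (mul_le_mul_of_nonneg_left ?_ hη0.le)
        rw [hL, show (2 : ℝ) * Real.log |t| = Real.log (|t| ^ 2) by rw [Real.log_pow]; norm_num]
        exact Real.log_le_log (by linarith [abs_nonneg T₀]) (hT2.trans htwo)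
      · rw [Finset.sum_const, Finset.card_range, nsmul_eq_mul, Nat.cast_succ]
    refine (mul_le_mul_of_nonneg_right k4 hP0.le).trans_eq ?_
    rw [hη]
    field_simp
  have hL0 : 0 ≤ L := by linarith [le_max_left (1 : ℝ) c₁]
  have hmin1 := mul_le_mul_of_nonneg_right (min_le_left (e / 4) 1) hL0
  have hmin2 := mul_le_mul_of_nonneg_right (min_le_right (e / 4) 1) hL0
  have hM1 : 2 * (Real.log (2 * S) + N * P + 1) ≤ e * L := by
    linarith [le_abs_self (Real.log (2 * S)), abs_nonneg (Real.log (2 * A)), hlS.2]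
  have hM3 : 8 * σ₀ / δ * (Real.log (2 * (A * (2 * |t|) ^ k)) + N * P + 1) ≤ D * L := by
    rw [hD, mul_assoc]
    refine mul_le_mul_of_nonneg_left ?_ (by positivity)
    have hlt : Real.log (2 * |t|) ≤ 2 * L := by
      rw [hL, show (2 : ℝ) * Real.log |t| = Real.log (|t| ^ 2) by rw [Real.log_pow]; norm_num]
      exact Real.log_le_log (by linarith) htwo
    rw [← mul_assoc, Real.log_mul (by positivity) (by positivity), Real.log_pow]
    have hk0 : (0 : ℝ) ≤ k := Nat.cast_nonneg k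
    linarith [le_max_left (1 : ℝ) c₁, le_max_right (1 : ℝ) c₁, le_abs_self (Real.log (2 * A)),
      abs_nonneg (Real.log (2 * S)), mul_le_mul_of_nonneg_left hlt hk0, mul_nonneg hk0 hL0, hlS.2]
  obtain ⟨z, hz⟩ : ∃ z : ℂ, z = ((σ - σ₀ : ℝ) : ℂ) := ⟨_, rfl⟩
  have hzn : ‖z‖ ≤ σ₀ - 1 / 2 - δ := by
    rw [hz, Complex.norm_real, Real.norm_eq_abs, abs_of_nonpos (by linarith)]
    linarith
  have hg : ‖g z‖ ≤ ε / 2 * L := by
    have key := (FA.VonKoch.norm_le_three_circles (R := σ₀ - 1 / 2 - δ / 4) (r₁ := 1 / 4)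
      (r₂ := σ₀ - 1 / 2 - δ) (r₃ := σ₀ - 1 / 2 - δ / 2) (by norm_num) (by linarith) (by linarith)
      (by linarith) hgd (fun w hw => (hin w hw).trans hM1) (fun w hw => (hout w hw).trans hM3) hzn)
    rw [← hα, Real.mul_rpow he0.le hL0, Real.mul_rpow hD0.le hL0,
      show ∀ x y z w : ℝ, x * y * (z * w) = x * z * (y * w) from fun x y z w => by ring,
      ← Real.rpow_add (by linarith [le_max_left (1 : ℝ) c₁]), sub_add_cancel, Real.rpow_one] at key
    exact key.trans (mul_le_mul_of_nonneg_right he1 hL0)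
  have hsum : pt σ₀ t + z = pt σ t := by
    rw [hz, pt, pt]
    push_cast
    ring
  have hval := hfac z (by linarith)
  rw [hsum] at hval
  have hre := abs_le.1 ((Complex.abs_re_le_norm (g z)).trans hg)
  refine ⟨?_, fun hfree => ?_⟩
  · rw [hval, norm_mul, norm_mul, Complex.norm_exp, hpow]
    have k1 : ‖rootProd Z z‖ ≤ (2 * σ₀) ^ N := hN ▸ norm_rootProd_le (by linarith) fun x hx =>
      (norm_sub_le _ _).trans (by linarith [hZ x hx])
    have k2 : (2 * σ₀) ^ N = Real.exp (N * P) := by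
      rw [hP, Real.exp_nat_mul, Real.exp_log (by linarith)]
    have k3 : ‖u‖ ≤ Real.exp (Real.log (2 * S)) := by
      rw [Real.exp_log (by linarith)]
      linarith
    calc ‖rootProd Z z‖ * (‖u‖ * Real.exp (g z).re)
        ≤ Real.exp (N * P) * (Real.exp (Real.log (2 * S)) * Real.exp (ε / 2 * L)) :=
          mul_le_mul (k1.trans_eq k2) (mul_le_mul k3 (Real.exp_le_exp.2 hre.2)
            (Real.exp_pos _).le (Real.exp_pos _).le) (by positivity) (Real.exp_pos _).le
      _ ≤ _ := by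
          rw [← Real.exp_add, ← Real.exp_add]
          refine Real.exp_le_exp.2 ?_
          linarith [mul_le_mul_of_nonneg_right heε hL0]
  · have hN0 : Z = 0 := by
      refine Multiset.eq_zero_of_forall_notMem fun x hx => ?_
      obtain ⟨h0, hre', him⟩ := hzero x hx
      have := hfree _ h0 (by linarith)
      rw [add_im, pt_im] at this
      have h5 := abs_sub_abs_le_abs_sub t (-x.im)
      rw [sub_neg_eq_add, abs_neg] at h5
      linarith
    rw [hN, hN0, Multiset.card_zero, pow_zero, one_mul] at hu'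
    rw [hval, hN0, rootProd, Multiset.map_zero, Multiset.prod_zero, one_mul, norm_mul,
      Complex.norm_exp, hpow]
    refine le_trans ?_ (mul_le_mul hu' (Real.exp_le_exp.2 hre.1) (Real.exp_pos _).le
      (norm_nonneg _))
    rw [hhalf, ← Real.exp_add]
    exact Real.exp_le_exp.2 (by linarith [hlS.1])

end FA.SelbergLindelof

end
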