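import Fermat.Agent.SelbergLindelof.Lines
import Fermat.Agent.LindelofBacklund.Interpolation

/-!
# Convexity

Hadamard's three lines for `E s exp ((s - s₀) ^ 2)`.
-/

set_option autoImplicit false

noncomputable section

open Complex Filter Topology Set
open scoped Real ComplexConjugate
open FA.DegreeGap (HasFunctionalEquation degree degree_nonneg pt pt_re pt_im)
open FA.Backlund (gauss_weight_le)
open FA.SelbergZeroCount (exists_strip_bound)

namespace FA.SelbergLindelof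

variable {a : ℕ → ℂ} {m : ℕ} {E : ℂ → ℂ} {r : ℕ} {lam : Fin r → ℝ} {mu : Fin r → ℂ} {Q : ℝ}
  {omega : ℂ}

/-- `E` is `O ((|t| + 3) ^ p)` on `re s = σ`. -/
def ClearedLe (E : ℂ → ℂ) (σ p : ℝ) : Prop :=
  ∃ A : ℝ, 0 ≤ A ∧ ∀ t : ℝ, ‖E (pt σ t)‖ ≤ A * (|t| + 3) ^ p

/-- **Three lines.** -/
theorem ClearedLe.interp (h : HasFunctionalEquation a m E lam mu Q omega) {u v p q : ℝ}
    (ha : ClearedLe E u p) (hb : ClearedLe E v q) (huv : u < v) (hp : 0 ≤ p) (hq : 0 ≤ q) :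
    ∃ C : ℝ, 0 ≤ C ∧ ∀ σ t : ℝ, u ≤ σ → σ ≤ v → ‖E (pt σ t)‖ ≤
      C * (|t| + 3) ^ (p * (1 - (σ - u) / (v - u)) + q * ((σ - u) / (v - u))) := by
  obtain ⟨A, hA, hA'⟩ := ha
  obtain ⟨B, hB, hB'⟩ := hb
  obtain ⟨k, D, hD, hpoly⟩ := exists_strip_bound h (A := min u (-1)) (B := max v 2)
    (lt_of_le_of_lt (min_le_right _ _) (by norm_num))
    (lt_of_lt_of_le (by norm_num) (le_max_right _ _))
  obtain ⟨W, hW⟩ : ∃ W, W = (v - u) ^ 2 := ⟨_, rfl⟩
  obtain ⟨M, hM⟩ : ∃ M : ℝ,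
      M = max (max A B * Real.exp (W + p ^ 2 / 4 + q ^ 2 / 4)) 1 := ⟨_, rfl⟩
  have hM1 : 1 ≤ M := hM ▸ le_max_right _ _
  refine ⟨M, by linarith, fun σ t h1 h2 => ?_⟩
  obtain ⟨s₀, hs₀⟩ : ∃ s₀ : ℂ, s₀ = pt σ t := ⟨_, rfl⟩
  obtain ⟨F, hF⟩ : ∃ F : ℂ → ℂ, F = fun s => E s * cexp ((s - s₀) ^ 2) := ⟨_, rfl⟩
  have hgauss : ∀ s : ℂ, s.re ∈ Icc u v →
      ‖cexp ((s - s₀) ^ 2)‖ ≤ Real.exp W * Real.exp (-(s.im - t) ^ 2) := fun s hs => by
    rw [Complex.norm_exp, sq (s - s₀), mul_re, ← Real.exp_add, Real.exp_le_exp, hW, hs₀, sub_re,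
      sub_im, pt_re, pt_im]
    nlinarith [hs.1, hs.2]
  have hedge : ∀ (c e K : ℝ), c ∈ Icc u v → 0 ≤ e → 0 ≤ K →
      K * Real.exp (W + e ^ 2 / 4) ≤ M →
      (∀ y : ℝ, ‖E (pt c y)‖ ≤ K * (|y| + 3) ^ e) →
      ∀ s ∈ re ⁻¹' {c}, ‖F s‖ ≤ M * (|t| + 3) ^ e := fun c e K hc he hK hKM hbd s hs => by
    have hre : s.re = c := hs
    have h3 := hbd s.im
    rw [← hre, pt, re_add_im] at h3
    rw [hF, norm_mul]
    refine (mul_le_mul h3 (hgauss s (hre ▸ hc)) (norm_nonneg _) (by positivity)).trans ?_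
    calc K * (|s.im| + 3) ^ e * (Real.exp W * Real.exp (-(s.im - t) ^ 2))
        = K * Real.exp W * ((|s.im| + 3) ^ e * Real.exp (-(s.im - t) ^ 2)) := by ring
      _ ≤ K * Real.exp W * ((|t| + 3) ^ e * Real.exp (e ^ 2 / 4)) :=
          mul_le_mul_of_nonneg_left (gauss_weight_le he _ _) (by positivity)
      _ = K * Real.exp (W + e ^ 2 / 4) * (|t| + 3) ^ e := by rw [Real.exp_add]; ring
      _ ≤ _ := mul_le_mul_of_nonneg_right hKM (by positivity)
  have hKle : ∀ K e : ℝ, 0 ≤ K → K ≤ max A B → e ^ 2 / 4 ≤ p ^ 2 / 4 + q ^ 2 / 4 →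
      K * Real.exp (W + e ^ 2 / 4) ≤ M := fun K e hK hK' he => by
    rw [hM]
    exact le_max_of_le_left (mul_le_mul hK' (Real.exp_le_exp.2 (by linarith))
      (Real.exp_pos _).le (hK.trans hK'))
  have hea := hedge u p A ⟨le_rfl, huv.le⟩ hp hA
    (hKle A p hA (le_max_left _ _) (le_add_of_nonneg_right (by positivity))) hA'
  have heb := hedge v q B ⟨huv.le, le_rfl⟩ hq hB
    (hKle B q hB (le_max_right _ _) (le_add_of_nonneg_left (by positivity))) hB'
  have hbdd : BddAbove ((norm ∘ F) '' HadamardThreeLines.verticalClosedStrip u v) := by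
    refine ⟨D * (Real.exp W * ((|t| + 3) ^ (k : ℝ) * Real.exp ((k : ℝ) ^ 2 / 4))), ?_⟩
    rintro _ ⟨s, hs, rfl⟩
    have hs' : s.re ∈ Icc u v := hs
    have h3 : ‖E s‖ ≤ D * (|s.im| + 3) ^ (k : ℝ) :=
      (hpoly s ((min_le_left _ _).trans hs'.1) (hs'.2.trans (le_max_left _ _))).trans (by
        rw [Real.rpow_natCast]
        exact mul_le_mul_of_nonneg_left (pow_le_pow_left₀ (by positivity) (by linarith) k) hD)
    show ‖F s‖ ≤ _
    rw [hF, norm_mul]
    refine (mul_le_mul h3 (hgauss s hs') (norm_nonneg _) (by positivity)).trans ?_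
    calc D * (|s.im| + 3) ^ (k : ℝ) * (Real.exp W * Real.exp (-(s.im - t) ^ 2))
        = D * (Real.exp W * ((|s.im| + 3) ^ (k : ℝ) * Real.exp (-(s.im - t) ^ 2))) := by ring
      _ ≤ _ := mul_le_mul_of_nonneg_left (mul_le_mul_of_nonneg_left
          (gauss_weight_le (Nat.cast_nonneg k) _ _) (Real.exp_pos _).le) hD
  have hd : Differentiable ℂ F := hF ▸ h.differentiable.mul
    (((differentiable_id.sub_const s₀).pow 2).cexp)
  have hre0 : s₀.re = σ := by rw [hs₀, pt_re]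
  have key := HadamardThreeLines.norm_le_interp_of_mem_verticalClosedStrip' huv (z := s₀)
    (show s₀.re ∈ Icc u v by rw [hre0]; exact ⟨h1, h2⟩) hd.diffContOnCl hbdd hea heb
  rw [hre0] at key
  have hval : F s₀ = E s₀ := by simp [hF]
  rw [hval] at key
  rw [← hs₀]
  refine key.trans (le_of_eq ?_)
  have h0 : 0 < M := by linarith
  have ht : 0 < |t| + 3 := by positivity
  rw [Real.mul_rpow h0.le (by positivity), Real.mul_rpow h0.le (by positivity),
    ← Real.rpow_mul ht.le, ← Real.rpow_mul ht.le,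
    show ∀ x y z w : ℝ, x * y * (z * w) = x * z * (y * w) from fun x y z w => by ring,
    ← Real.rpow_add h0, ← Real.rpow_add ht, sub_add_cancel, Real.rpow_one]

/-- From `L` to `E`. -/
theorem LineLe.cleared (h : HasFunctionalEquation a m E lam mu Q omega) {σ e : ℝ} (he : 0 ≤ e)
    (hb : LineLe (lVal E m) σ e) : ClearedLe E σ (e + m) := by
  obtain ⟨C, hC⟩ := hb
  obtain ⟨K, hK⟩ := (isCompact_Icc (a := (-1 : ℝ)) (b := 1)).exists_bound_of_continuousOn
    (f := fun t : ℝ => E (pt σ t))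
    (h.differentiable.continuous.comp (FA.DegreeGap.continuous_pt σ)).continuousOn
  refine ⟨|C| * (|σ - 1| + 1) ^ m + |K|, by positivity, fun t => ?_⟩
  have hone : 1 ≤ (|t| + 3) ^ (e + m) :=
    Real.one_le_rpow (by linarith [abs_nonneg t]) (by positivity)
  rcases le_or_gt |t| 1 with ht | ht
  · refine ((hK t (abs_le.1 ht)).trans (le_abs_self K)).trans ?_
    exact (le_add_of_nonneg_left (by positivity)).trans
      (le_mul_of_one_le_right (by positivity) hone)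
  have hs1 : ‖pt σ t - 1‖ ≤ (|σ - 1| + 1) * (|t| + 3) := by
    refine (norm_le_abs_re_add_abs_im _).trans ?_
    simp only [sub_re, sub_im, pt_re, pt_im, one_re, one_im, sub_zero]
    nlinarith [abs_nonneg (σ - 1), abs_nonneg t]
  have h3 := (hC t ht.le).trans (mul_le_mul (le_abs_self C)
    (Real.rpow_le_rpow (abs_nonneg t) (show |t| ≤ |t| + 3 by linarith) he)
      (by positivity) (abs_nonneg C))
  rw [lVal, norm_div, norm_pow, div_le_iff₀ (pow_pos (norm_pos_iff.2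
    (sub_ne_zero.2 (pt_ne_one ht.le))) m)] at h3
  refine h3.trans ((mul_le_mul_of_nonneg_left (pow_le_pow_left₀ (norm_nonneg _) hs1 m)
    (by positivity)).trans ?_)
  rw [mul_pow, Real.rpow_add (by positivity), Real.rpow_natCast, add_mul]
  exact le_of_eq_of_le (by ring) (le_add_of_nonneg_right (by positivity))

/-- **Interpolation for `L`.** -/
theorem exists_interp (h : HasFunctionalEquation a m E lam mu Q omega) {u v p q : ℝ}
    (ha : LineLe (lVal E m) u p) (hb : LineLe (lVal E m) v q) (huv : u < v) (hp : 0 ≤ p)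
    (hq : 0 ≤ q) : ∃ C : ℝ, 0 ≤ C ∧ ∀ σ t : ℝ, u ≤ σ → σ ≤ v → 1 ≤ |t| → ‖lVal E m (pt σ t)‖ ≤
      C * |t| ^ (p * (1 - (σ - u) / (v - u)) + q * ((σ - u) / (v - u))) := by
  obtain ⟨C, hC, hb'⟩ := (ha.cleared h hp).interp h (hb.cleared h hq) huv (by positivity)
    (by positivity)
  refine ⟨C * 4 ^ (p + q + m : ℝ), by positivity, fun σ t h1 h2 ht => ?_⟩
  obtain ⟨θ, hθ⟩ : ∃ θ, θ = (σ - u) / (v - u) := ⟨_, rfl⟩
  rw [← hθ]
  have hθ0 : 0 ≤ θ := hθ ▸ div_nonneg (by linarith) (by linarith)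
  have hθ1 : θ ≤ 1 := by rw [hθ, div_le_one (by linarith)]; linarith
  have h3 := hb' σ t h1 h2
  rw [← hθ, show (p + m) * (1 - θ) + (q + m) * θ = p * (1 - θ) + q * θ + m by ring] at h3
  have he : 0 ≤ p * (1 - θ) + q * θ :=
    add_nonneg (mul_nonneg hp (sub_nonneg.2 hθ1)) (mul_nonneg hq hθ0)
  have hle : p * (1 - θ) + q * θ + m ≤ p + q + m := by
    nlinarith [mul_nonneg hp hθ0, mul_nonneg hq (sub_nonneg.2 hθ1)]
  obtain ⟨e, hedef⟩ : ∃ e, e = p * (1 - θ) + q * θ := ⟨_, rfl⟩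
  rw [← hedef] at he hle h3 ⊢
  have ht0 : 0 < |t| := by linarith
  have hlow : |t| ≤ ‖pt σ t - 1‖ := by
    simpa [pt_im] using Complex.abs_im_le_norm (pt σ t - 1)
  rw [lVal, norm_div, norm_pow, div_le_iff₀ (pow_pos (ht0.trans_le hlow) m)]
  refine h3.trans ?_
  calc C * (|t| + 3) ^ (e + m) ≤ C * (4 * |t|) ^ (e + m) :=
        mul_le_mul_of_nonneg_left (Real.rpow_le_rpow (by positivity) (by linarith)
          (by positivity)) hC
    _ = C * 4 ^ (e + m) * |t| ^ e * |t| ^ m := by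
        rw [Real.mul_rpow (by norm_num) ht0.le, Real.rpow_add ht0, Real.rpow_natCast]
        ring
    _ ≤ _ := by
        refine mul_le_mul (mul_le_mul_of_nonneg_right (mul_le_mul_of_nonneg_left
          (Real.rpow_le_rpow_of_exponent_le (by norm_num) hle) hC) (by positivity))
          (pow_le_pow_left₀ ht0.le hlow m) (by positivity) (by positivity)

/-- **The convexity bound.** -/
theorem exists_convexity (h : HasFunctionalEquation a m E lam mu Q omega) {ε : ℝ} (hε : 0 < ε) :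
    ∃ C : ℝ, ∀ σ t : ℝ, 0 ≤ σ → σ ≤ 1 → 1 ≤ |t| →
      ‖lVal E m (pt σ t)‖ ≤ C * |t| ^ (degree lam * (1 - σ) / 2 + ε) := by
  have hd := degree_nonneg h
  obtain ⟨δ, hδ⟩ : ∃ δ, δ = ε / (degree lam + 1) := ⟨_, rfl⟩
  have hδ0 : 0 < δ := hδ ▸ div_pos hε (by linarith)
  have hdδ : degree lam * δ ≤ ε := by
    rw [hδ, mul_div_assoc', div_le_iff₀ (by linarith)]
    nlinarith
  obtain ⟨C, hC, hb⟩ := exists_interp h (lineLe_left h (σ := -δ) (by linarith))
    (lineLe_right h (σ := 1 + δ) (by linarith)) (by linarith)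
    (mul_nonneg hd (by linarith)) le_rfl
  refine ⟨C, fun σ t h0 h1 ht => (hb σ t (by linarith) (by linarith) ht).trans
    (mul_le_mul_of_nonneg_left (Real.rpow_le_rpow_of_exponent_le ht ?_) hC)⟩
  have e : degree lam * (1 / 2 - -δ) * (1 - (σ - -δ) / (1 + δ - -δ)) +
      0 * ((σ - -δ) / (1 + δ - -δ)) = degree lam * (1 + δ - σ) / 2 := by
    have hne : 1 + δ - -δ ≠ 0 := by linarith
    rw [zero_mul, add_zero, one_sub_div hne,
      show (1 / 2 : ℝ) - -δ = (1 + δ - -δ) / 2 by ring]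
    field_simp
    ring
  rw [e]
  linarith

/-- **Lindelöf's bound spreads to `re s ≥ 1/2`.** -/
theorem exists_half_plane (h : HasFunctionalEquation a m E lam mu Q omega)
    (hL : ∀ ε : ℝ, 0 < ε → LineLe (lVal E m) (1 / 2) ε) {ε : ℝ} (hε : 0 < ε) :
    ∃ C : ℝ, 0 ≤ C ∧ ∀ σ t : ℝ, 1 / 2 ≤ σ → 1 ≤ |t| → ‖lVal E m (pt σ t)‖ ≤ C * |t| ^ ε := by
  obtain ⟨C, hC, hb⟩ := exists_interp h (hL ε hε) (lineLe_right h (σ := 2) one_lt_two)
    (by norm_num) hε.le le_rfl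
  obtain ⟨S, hS⟩ : ∃ S, S = ∑' n, ‖LSeries.term a ((2 : ℝ) : ℂ) n‖ := ⟨_, rfl⟩
  have hS0 : 0 ≤ S := hS ▸ tsum_nonneg fun _ => norm_nonneg _
  refine ⟨C + S, by linarith, fun σ t hσ ht => ?_⟩
  have hp : 1 ≤ |t| ^ ε := Real.one_le_rpow ht hε.le
  rcases le_or_gt σ 2 with h2 | h2
  · refine (hb σ t hσ h2 ht).trans ?_
    have hθ : 0 ≤ (σ - 1 / 2) / (2 - 1 / 2) := div_nonneg (by linarith) (by norm_num)
    exact mul_le_mul (by linarith) (Real.rpow_le_rpow_of_exponent_le ht (by nlinarith))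
      (Real.rpow_nonneg (abs_nonneg t) _) (by linarith)
  · rw [lVal_eq_series h (by rw [pt_re]; linarith)]
    exact (FA.DegreeGap.norm_lSeries_le (h.summable ((2 : ℝ) : ℂ) (by norm_num))
      (by rw [pt_re]; exact h2.le)).trans ((show _ ≤ C + S by linarith).trans
        (le_mul_of_one_le_right (by linarith) hp))

theorem lineLe_left_half (h : HasFunctionalEquation a m E lam mu Q omega)
    (hL : ∀ ε : ℝ, 0 < ε → LineLe (lVal E m) (1 / 2) ε) {σ ε : ℝ} (hσ : σ ≤ 1 / 2) (hε : 0 < ε) :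
    LineLe (lVal E m) σ (degree lam * (1 / 2 - σ) + ε) := by
  obtain ⟨C, -, hb⟩ := exists_half_plane h hL hε
  exact LineLe.reflect h (by linarith) ⟨C, fun t ht => hb (1 - σ) t (by linarith) ht⟩

end FA.SelbergLindelof

end
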