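import Fermat.Agent.SelbergZeroCount.Horizontal
import Fermat.Agent.SelbergMultiplicity.Reflection

/-!
# The size of the reflection ratio and the values left of the critical line

`|R (σ + it)|` is of exact order `|t| ^ (d (1/2 - σ))`, so `L` to the left of `1/2` is `L` to the
right times that power.
-/

set_option autoImplicit false

noncomputable section

open Complex Filter Topology Set
open scoped Real ComplexConjugate
open FA.DegreeGap (HasFunctionalEquation degree pt pt_re pt_im continuous_pt one_sub_conj_pt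
  norm_lSeries_le)
open FA.DegreeOne (reflRatio)
open FA.SelbergStructure (tendsto_reflRatio normExp)
open FA.SelbergMultiplicity (differentiableAt_reflRatio)
open FA.SelbergZeroCount (reflRatio_conj exists_right_lower)

namespace FA.SelbergLindelof

variable {a : ℕ → ℂ} {m : ℕ} {E : ℂ → ℂ} {r : ℕ} {lam : Fin r → ℝ} {mu : Fin r → ℂ} {Q : ℝ}
  {omega : ℂ} {σ : ℝ}

/-- The continued series `E s / (s - 1) ^ m`. -/
def lVal (E : ℂ → ℂ) (m : ℕ) (s : ℂ) : ℂ := E s / (s - 1) ^ m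

/-- `f` is `O (|t| ^ e)` on `re s = σ`, `|t| ≥ 1`. -/
def LineLe (f : ℂ → ℂ) (σ e : ℝ) : Prop :=
  ∃ C : ℝ, ∀ t : ℝ, 1 ≤ |t| → ‖f (pt σ t)‖ ≤ C * |t| ^ e

theorem pt_ne_one {t : ℝ} (ht : 1 ≤ |t|) : pt σ t ≠ 1 := fun e => by
  have h := congrArg Complex.im e
  rw [pt_im, one_im] at h
  rw [h, abs_zero] at ht
  linarith

theorem lVal_eq_series (h : HasFunctionalEquation a m E lam mu Q omega) {s : ℂ} (hs : 1 < s.re) :
    lVal E m s = LSeries a s := by
  rw [lVal, h.eq_series s hs, mul_div_cancel_left₀ _ (pow_ne_zero m (sub_ne_zero.2 fun e => by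
    rw [e, one_re] at hs
    exact lt_irrefl _ hs))]

theorem lVal_eq_zero_iff {s : ℂ} (hs : s ≠ 1) : lVal E m s = 0 ↔ E s = 0 := by
  rw [lVal, div_eq_zero_iff, or_iff_left (pow_ne_zero m (sub_ne_zero.2 hs))]

theorem differentiableAt_lVal (h : HasFunctionalEquation a m E lam mu Q omega) {s : ℂ}
    (hs : s ≠ 1) : DifferentiableAt ℂ (lVal E m) s :=
  (h.differentiable s).div ((differentiableAt_id.sub_const 1).pow m)
    (pow_ne_zero m (sub_ne_zero.2 hs))

/-- **The functional equation in modulus.** -/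
theorem norm_lVal_reflect (h : HasFunctionalEquation a m E lam mu Q omega) (hσ : σ < 1) {t : ℝ}
    (ht : 1 ≤ |t|) : ‖lVal E m (pt σ t)‖ =
      ‖reflRatio lam mu Q (pt σ t)‖ * ‖lVal E m (pt (1 - σ) t)‖ := by
  have hr := congrArg (‖·‖) (FA.SelbergMultiplicity.reflect h (s := pt σ t) (by rwa [pt_re]))
  simp only [norm_mul, norm_pow, norm_neg, h.norm_omega, one_mul, Complex.norm_conj,
    one_sub_conj_pt] at hr
  have h1 : ‖pt (1 - σ) t - 1‖ = ‖pt σ t‖ := by
    rw [show pt (1 - σ) t - 1 = -conj (pt σ t) by apply Complex.ext <;> simp [pt], norm_neg,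
      Complex.norm_conj]
  have h2 : ‖pt σ t - 1‖ ≠ 0 := norm_ne_zero_iff.2 (sub_ne_zero.2 (pt_ne_one ht))
  have h3 : ‖pt σ t‖ ≠ 0 := norm_ne_zero_iff.2 fun e => by
    have := congrArg Complex.im e
    rw [pt_im, zero_im] at this
    rw [this, abs_zero] at ht
    linarith
  rw [lVal, lVal, norm_div, norm_div, norm_pow, norm_pow, h1, ← mul_div_assoc,
    div_eq_div_iff (pow_ne_zero m h2) (pow_ne_zero m h3)]
  linear_combination hr

theorem exists_ratio_upper (hlam : ∀ j, 0 < lam j) (hmu : ∀ j, 0 ≤ (mu j).re) (hQ : 0 < Q)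
    (hσ : σ < 1) : ∃ c C T : ℝ, 0 < c ∧
      (∀ t : ℝ, T ≤ t → c * t ^ (degree lam * (1 / 2 - σ)) ≤ ‖reflRatio lam mu Q (pt σ t)‖) ∧
      ∀ t : ℝ, 1 ≤ t → ‖reflRatio lam mu Q (pt σ t)‖ ≤ C * t ^ (degree lam * (1 / 2 - σ)) := by
  obtain ⟨e, he⟩ : ∃ e, e = degree lam * (1 / 2 - σ) := ⟨_, rfl⟩
  rw [← he]
  obtain ⟨K, hK, hlim⟩ := tendsto_reflRatio (mu := mu) hlam hQ σ
  have hlim' : Tendsto (fun t : ℝ => ‖reflRatio lam mu Q (pt σ t)‖ / t ^ e) atTop (𝓝 ‖K‖) := by
    refine hlim.norm.congr' ?_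
    filter_upwards [eventually_gt_atTop (0 : ℝ)] with t ht
    rw [norm_mul, Complex.norm_exp, normExp, ← he, add_re, ofReal_re, re_ofReal_mul, I_re,
      mul_zero, add_zero, neg_mul, Real.exp_neg, div_eq_mul_inv, Real.rpow_def_of_pos ht,
      mul_comm e]
  have hK0 : 0 < ‖K‖ := norm_pos_iff.2 hK
  obtain ⟨T, hT⟩ := eventually_atTop.1 (((hlim'.eventually (Ioi_mem_nhds (half_lt_self hK0))).and
    (hlim'.eventually (Iio_mem_nhds (lt_add_one ‖K‖)))).and (eventually_ge_atTop (1 : ℝ)))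
  have hc : ContinuousOn (fun t : ℝ => ‖reflRatio lam mu Q (pt σ t)‖ / t ^ e) (Icc 1 T) := by
    intro t ht
    refine (ContinuousAt.div ?_ (Real.continuousAt_rpow_const t e (Or.inl (by linarith [ht.1])))
      (Real.rpow_pos_of_pos (by linarith [ht.1]) e).ne').continuousWithinAt
    exact ((differentiableAt_reflRatio hlam hmu hQ (by rwa [pt_re])).continuousAt.comp'
      (continuous_pt σ).continuousAt).norm
  obtain ⟨M, hM⟩ := isCompact_Icc.exists_bound_of_continuousOn hc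
  refine ⟨‖K‖ / 2, max M (‖K‖ + 1), T, half_pos hK0, fun t ht => ?_, fun t ht => ?_⟩
  · obtain ⟨⟨h1, -⟩, h3⟩ := hT t ht
    rw [lt_div_iff₀ (Real.rpow_pos_of_pos (by linarith) e)] at h1
    exact h1.le
  · rw [← div_le_iff₀ (Real.rpow_pos_of_pos (by linarith) e)]
    rcases le_or_gt t T with hle | hlt
    · exact ((le_abs_self _).trans (hM t ⟨ht, hle⟩)).trans (le_max_left _ _)
    · exact (hT t hlt.le).1.2.le.trans (le_max_right _ _)

/-- **`|R (σ + it)| ≍ |t| ^ (d (1/2 - σ))`.** -/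
theorem exists_ratio_bounds (h : HasFunctionalEquation a m E lam mu Q omega) (hσ : σ < 1) :
    ∃ c C T : ℝ, 0 < c ∧ 0 ≤ C ∧
      (∀ t : ℝ, T ≤ |t| → c * |t| ^ (degree lam * (1 / 2 - σ)) ≤ ‖reflRatio lam mu Q (pt σ t)‖) ∧
      ∀ t : ℝ, 1 ≤ |t| → ‖reflRatio lam mu Q (pt σ t)‖ ≤ C * |t| ^ (degree lam * (1 / 2 - σ)) := by
  obtain ⟨c, C, T, hc, hl, hu⟩ := exists_ratio_upper (mu := mu) h.lam_pos h.mu_re h.Q_pos hσ
  obtain ⟨c', C', T', hc', hl', hu'⟩ := exists_ratio_upper (mu := fun j => conj (mu j)) h.lam_pos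
    (fun j => by simpa using h.mu_re j) h.Q_pos hσ
  have hneg : ∀ t : ℝ, ‖reflRatio lam mu Q (pt σ t)‖ =
      ‖reflRatio lam (fun j => conj (mu j)) Q (pt σ (-t))‖ := fun t => by
    rw [show pt σ (-t) = conj (pt σ t) by apply Complex.ext <;> simp [pt],
      reflRatio_conj h.Q_pos, Complex.norm_conj]
  refine ⟨min c c', |C| + |C'|, max T T', lt_min hc hc', by positivity, fun t ht => ?_,
    fun t ht => ?_⟩
  · have hp : 0 ≤ |t| ^ (degree lam * (1 / 2 - σ)) := Real.rpow_nonneg (abs_nonneg t) _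
    rcases le_total 0 t with h0 | h0
    · rw [abs_of_nonneg h0] at ht hp ⊢
      exact (mul_le_mul_of_nonneg_right (min_le_left c c') hp).trans
        (hl t ((le_max_left T T').trans ht))
    · rw [abs_of_nonpos h0] at ht hp ⊢
      rw [hneg]
      exact (mul_le_mul_of_nonneg_right (min_le_right c c') hp).trans
        (hl' (-t) ((le_max_right T T').trans ht))
  · have hp : 0 ≤ |t| ^ (degree lam * (1 / 2 - σ)) := Real.rpow_nonneg (abs_nonneg t) _
    rcases le_total 0 t with h0 | h0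
    · rw [abs_of_nonneg h0] at ht hp ⊢
      exact (hu t ht).trans (mul_le_mul_of_nonneg_right
        (by linarith [le_abs_self C, abs_nonneg C']) hp)
    · rw [abs_of_nonpos h0] at ht hp ⊢
      rw [hneg]
      exact (hu' (-t) ht).trans (mul_le_mul_of_nonneg_right
        (by linarith [le_abs_self C', abs_nonneg C]) hp)

/-- From the right of `1/2` to the left. -/
theorem LineLe.reflect (h : HasFunctionalEquation a m E lam mu Q omega) (hσ : σ < 1) {e : ℝ}
    (hb : LineLe (lVal E m) (1 - σ) e) :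
    LineLe (lVal E m) σ (degree lam * (1 / 2 - σ) + e) := by
  obtain ⟨-, C, -, -, hC, -, hu⟩ := exists_ratio_bounds h hσ
  obtain ⟨D, hD⟩ := hb
  refine ⟨C * D, fun t ht => ?_⟩
  rw [norm_lVal_reflect h hσ ht, Real.rpow_add (by linarith), show C * D *
    (|t| ^ (degree lam * (1 / 2 - σ)) * |t| ^ e) =
      (C * |t| ^ (degree lam * (1 / 2 - σ))) * (D * |t| ^ e) by ring]
  exact mul_le_mul (hu t ht) (hD t ht) (norm_nonneg _) (mul_nonneg hC (Real.rpow_nonneg
    (abs_nonneg t) _))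

theorem lineLe_right (h : HasFunctionalEquation a m E lam mu Q omega) (hσ : 1 < σ) :
    LineLe (lVal E m) σ 0 := by
  refine ⟨∑' n, ‖LSeries.term a (σ : ℂ) n‖, fun t _ => ?_⟩
  rw [Real.rpow_zero, mul_one, lVal_eq_series h (by rwa [pt_re])]
  exact norm_lSeries_le (h.summable _ (by simpa using hσ)) (pt_re σ t).ge

theorem lineLe_left (h : HasFunctionalEquation a m E lam mu Q omega) (hσ : σ < 0) :
    LineLe (lVal E m) σ (degree lam * (1 / 2 - σ)) := by
  simpa using LineLe.reflect h (σ := σ) (by linarith) (lineLe_right h (by linarith))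

/-- **Far to the left the order is exact.** -/
theorem exists_left_lower (h : HasFunctionalEquation a m E lam mu Q omega) (h1 : a 1 = 1) :
    ∃ σ₁ : ℝ, σ₁ < 0 ∧ ∀ σ : ℝ, σ ≤ σ₁ → ∃ c T : ℝ, 0 < c ∧ ∀ t : ℝ, T ≤ |t| →
      c * |t| ^ (degree lam * (1 / 2 - σ)) ≤ ‖lVal E m (pt σ t)‖ := by
  obtain ⟨σ₀, h2, hlow⟩ := exists_right_lower h h1
  refine ⟨1 - σ₀, by linarith, fun σ hσ => ?_⟩
  obtain ⟨c, -, T, hc, -, hl, -⟩ := exists_ratio_bounds h (σ := σ) (by linarith)
  refine ⟨c / 2, max T 1, half_pos hc, fun t ht => ?_⟩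
  rw [norm_lVal_reflect h (by linarith) ((le_max_right T 1).trans ht),
    lVal_eq_series h (by rw [pt_re]; linarith), div_mul_eq_mul_div, div_eq_mul_inv]
  exact mul_le_mul (hl t ((le_max_left T 1).trans ht))
    ((show (2 : ℝ)⁻¹ = 1 / 2 by norm_num).trans_le
      ((hlow _ (by rw [pt_re]; linarith)).trans (Complex.re_le_norm _)))
    (by norm_num) (norm_nonneg _)

/-- **The degree is read off from the growth.** -/
theorem tendsto_log_lVal (h : HasFunctionalEquation a m E lam mu Q omega) (h1 : a 1 = 1) :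
    ∃ σ₁ : ℝ, σ₁ < 0 ∧ ∀ σ : ℝ, σ ≤ σ₁ →
      Tendsto (fun t : ℝ => Real.log ‖lVal E m (pt σ t)‖ / Real.log t) atTop
        (𝓝 (degree lam * (1 / 2 - σ))) := by
  obtain ⟨σ₁, hσ₁, hlow⟩ := exists_left_lower h h1
  refine ⟨σ₁, hσ₁, fun σ hσ => ?_⟩
  obtain ⟨c, T, hc, hl⟩ := hlow σ hσ
  obtain ⟨C, hu⟩ := lineLe_left h (show σ < 0 by linarith)
  obtain ⟨e, he⟩ : ∃ e, e = degree lam * (1 / 2 - σ) := ⟨_, rfl⟩
  simp only [← he] at hl hu ⊢
  have hlim : ∀ x : ℝ, Tendsto (fun t : ℝ => x / Real.log t + e) atTop (𝓝 e) := fun x => by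
    simpa using (Real.tendsto_log_atTop.const_div_atTop x).add_const e
  refine tendsto_of_tendsto_of_tendsto_of_le_of_le' (hlim (Real.log c)) (hlim (Real.log C)) ?_ ?_
  all_goals
    filter_upwards [eventually_gt_atTop (max T 1)] with t ht
    have h1t : 1 < t := (le_max_right T 1).trans_lt ht
    have habs : |t| = t := abs_of_pos (by linarith)
    have hp : 0 < t ^ e := Real.rpow_pos_of_pos (by linarith) e
    have hlo := hl t (by rw [habs]; exact ((le_max_left T 1).trans_lt ht).le)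
    have hup := hu t (by rw [habs]; linarith)
    rw [habs] at hlo hup
    have hC : 0 < C :=
      pos_of_mul_pos_left ((mul_pos hc hp).trans_le (hlo.trans hup)) hp.le
    have hlt := Real.log_pos h1t
    rw [div_add' _ _ _ hlt.ne']
    refine div_le_div_of_nonneg_right ?_ hlt.le
    rw [← Real.log_rpow (by linarith : (0 : ℝ) < t)]
  · rw [← Real.log_mul hc.ne' hp.ne']
    exact Real.log_le_log (mul_pos hc hp) hlo
  · rw [← Real.log_mul hC.ne' hp.ne']
    exact Real.log_le_log ((mul_pos hc hp).trans_le hlo) hup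

end FA.SelbergLindelof

end
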