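import Fermat.Agent.SelbergLindelof.Disc

/-!
# Backlund's theorem in the Selberg class
-/

set_option autoImplicit false

noncomputable section

open Complex Filter Topology Set
open scoped Real
open FA.DegreeGap (HasFunctionalEquation degree degree_nonneg pt pt_re pt_im continuous_pt)
open FA.SelbergClass (HasEulerProduct)

namespace FA.SelbergLindelof

variable {a : ℕ → ℂ} {m : ℕ} {E : ℂ → ℂ} {r : ℕ} {lam : Fin r → ℝ} {mu : Fin r → ℂ} {Q : ℝ}
  {omega : ℂ}

theorem lineLe_of_large (h : HasFunctionalEquation a m E lam mu Q omega) {σ e T : ℝ} (he : 0 ≤ e)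
    (hb : ∀ t : ℝ, T ≤ |t| → ‖lVal E m (pt σ t)‖ ≤ |t| ^ e) : LineLe (lVal E m) σ e := by
  obtain ⟨K, hK⟩ := ((isCompact_Icc (a := (1 : ℝ)) (b := T)).union
    (isCompact_Icc (a := -T) (b := (-1 : ℝ)))).exists_bound_of_continuousOn
      (f := fun t : ℝ => lVal E m (pt σ t)) fun t ht =>
        ((differentiableAt_lVal h (pt_ne_one (by
          rcases ht with ht | ht
          · exact ht.1.trans (le_abs_self t)
          · linarith [ht.2, neg_le_abs t]))).continuousAt.comp'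
            (continuous_pt σ).continuousAt).continuousWithinAt
  refine ⟨|K| + 1, fun t ht => ?_⟩
  have hp : 1 ≤ |t| ^ e := Real.one_le_rpow ht he
  rcases le_or_gt T |t| with hle | hlt
  · exact (hb t hle).trans (le_mul_of_one_le_left (by positivity)
      (le_add_of_nonneg_left (abs_nonneg K)))
  · refine ((hK t ?_).trans (le_abs_self K)).trans ?_
    · rcases abs_choice t with h1 | h1 <;> rw [h1] at ht hlt
      · exact Or.inl ⟨ht, hlt.le⟩
      · exact Or.inr ⟨by linarith, by linarith⟩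
    · nlinarith [abs_nonneg K]

/-- **Few zeros give Lindelöf's bound.** -/
theorem lindelof_of_zerosSparse (h : HasFunctionalEquation a m E lam mu Q omega)
    (he : HasEulerProduct a) (hS : ZerosSparse E) {ε : ℝ} (hε : 0 < ε) :
    LineLe (lVal E m) (1 / 2) ε := by
  have hd := degree_nonneg h
  obtain ⟨δ, hδ⟩ : ∃ δ, δ = min (1 / 2) (ε / (degree lam + 1)) := ⟨_, rfl⟩
  have hδ0 : 0 < δ := hδ ▸ lt_min (by norm_num) (div_pos hε (by linarith))
  have hδ2 : δ ≤ 1 / 2 := hδ ▸ min_le_left _ _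
  have hdδ : degree lam * δ ≤ ε := by
    refine (mul_le_mul_of_nonneg_left (hδ ▸ min_le_right _ _) hd).trans ?_
    rw [mul_div_assoc', div_le_iff₀ (by linarith)]
    nlinarith
  obtain ⟨σ₀, T, -, hb⟩ := exists_small_log h he hδ0 hδ2
    (fun η hη => hS _ (by linarith) η hη) (half_pos hε)
  have hright : LineLe (lVal E m) (1 / 2 + δ) (ε / 2) :=
    lineLe_of_large h (by linarith) fun t ht => (hb _ t le_rfl ht).1
  have hleft : LineLe (lVal E m) (1 / 2 - δ) (degree lam * δ + ε / 2) := by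
    have h1 := LineLe.reflect h (σ := 1 / 2 - δ) (e := ε / 2) (by linarith)
      (by rwa [show 1 - (1 / 2 - δ) = 1 / 2 + δ by ring])
    rwa [sub_sub_cancel] at h1
  obtain ⟨C, hC, hi⟩ := exists_interp h hleft hright (by linarith) (by positivity) (by positivity)
  refine ⟨C, fun t ht => (hi (1 / 2) t (by linarith) (by linarith) ht).trans
    (mul_le_mul_of_nonneg_left (Real.rpow_le_rpow_of_exponent_le ht ?_) hC)⟩
  rw [show (1 / 2 - (1 / 2 - δ)) / (1 / 2 + δ - (1 / 2 - δ)) = 1 / 2 by field_simp; ring]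
  linarith

/-- **Backlund's theorem.** -/
theorem lindelof_iff (h : HasFunctionalEquation a m E lam mu Q omega) (he : HasEulerProduct a) :
    (∀ ε : ℝ, 0 < ε → LineLe (lVal E m) (1 / 2) ε) ↔ ZerosSparse E :=
  ⟨zerosSparse_of_lindelof h he, fun hS _ hε => lindelof_of_zerosSparse h he hS hε⟩

/-- No zeros off the line at great height. -/
theorem zerosSparse_of_grh {T₁ : ℝ} (hG : ∀ ρ, E ρ = 0 → 1 / 2 < ρ.re → |ρ.im| ≤ T₁) :
    ZerosSparse E := by
  intro σ hσ η hη
  refine ⟨|T₁| + 2, fun T hT => ?_⟩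
  have hempty : winSet E σ T = ∅ := Set.eq_empty_iff_forall_notMem.2 fun ρ ⟨h0, h1, h2⟩ => by
    have := hG ρ h0 (by linarith)
    linarith [abs_sub_abs_le_abs_sub T ρ.im, abs_sub_comm T ρ.im, le_abs_self T₁]
  rw [winCount, hempty, finsum_mem_empty, Nat.cast_zero]
  exact mul_nonneg hη.le (Real.log_nonneg (by linarith [abs_nonneg T₁]))

/-- **On GRH `L` and `1/L` are `O (|t| ^ ε)` to the right of the line.** -/
theorem exists_bounds_of_grh (h : HasFunctionalEquation a m E lam mu Q omega)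
    (he : HasEulerProduct a) {T₁ : ℝ} (hG : ∀ ρ, E ρ = 0 → 1 / 2 < ρ.re → |ρ.im| ≤ T₁) {δ ε : ℝ}
    (hδ : 0 < δ) (hε : 0 < ε) : ∃ T : ℝ, ∀ σ t : ℝ, 1 / 2 + δ ≤ σ → T ≤ |t| →
      |t| ^ (-ε) ≤ ‖lVal E m (pt σ t)‖ ∧ ‖lVal E m (pt σ t)‖ ≤ |t| ^ ε := by
  obtain ⟨δ', hδ'⟩ : ∃ δ', δ' = min δ (1 / 2) := ⟨_, rfl⟩
  have hδ0 : 0 < δ' := hδ' ▸ lt_min hδ (by norm_num)
  obtain ⟨σ₀, T, -, hb⟩ := exists_small_log h he hδ0 (hδ' ▸ min_le_right _ _)
    (fun η hη => zerosSparse_of_grh hG _ (by linarith) η hη) hε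
  refine ⟨max T (T₁ + σ₀), fun σ t hσ ht => ?_⟩
  obtain ⟨h1, h2⟩ := hb σ t (le_trans (by linarith [hδ' ▸ min_le_left δ (1 / 2)]) hσ)
    ((le_max_left _ _).trans ht)
  exact ⟨h2 fun ρ h0 hre => (hG ρ h0 hre).trans (by linarith [le_max_right T (T₁ + σ₀)]), h1⟩

end FA.SelbergLindelof

end
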