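import Fermat.Agent.SelbergLindelof.Interp
import Fermat.Agent.RiemannMangoldt.Factor
import Fermat.Agent.SelbergZeroCount.Main

/-!
# Lindelöf's bound leaves few zeros to the right of the line

Jensen's inequality on circles round a centre far to the right.
-/

set_option autoImplicit false

noncomputable section

open Complex Filter Topology Metric Set
open scoped Real
open FA.DegreeGap (HasFunctionalEquation pt pt_re pt_im)
open FA.SelbergClass (HasEulerProduct)
open FA.SelbergZeroCount (order_div_pow lSeries_ne_zero exists_right_lower exists_ne_zero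
  finite_boxZeros)
open FA.RiemannMangoldt (rootProd)

namespace FA.SelbergLindelof

variable {a : ℕ → ℂ} {m : ℕ} {E : ℂ → ℂ} {r : ℕ} {lam : Fin r → ℝ} {mu : Fin r → ℂ} {Q : ℝ}
  {omega : ℂ}

/-- The zeros with `re ρ ≥ σ` and `|im ρ - T| ≤ 1`. -/
def winSet (E : ℂ → ℂ) (σ T : ℝ) : Set ℂ := {ρ | E ρ = 0 ∧ σ ≤ ρ.re ∧ |ρ.im - T| ≤ 1}

/-- Their number, with multiplicity. -/
def winCount (E : ℂ → ℂ) (σ T : ℝ) : ℕ := ∑ᶠ ρ ∈ winSet E σ T, analyticOrderNatAt E ρ

/-- There are `o (log |T|)` zeros in the windows to the right of the line. -/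
def ZerosSparse (E : ℂ → ℂ) : Prop :=
  ∀ σ : ℝ, 1 / 2 < σ → ∀ η : ℝ, 0 < η → ∃ T₀ : ℝ, ∀ T : ℝ, T₀ ≤ |T| →
    (winCount E σ T : ℝ) ≤ η * Real.log |T|

theorem re_le_one_of_zero (h : HasFunctionalEquation a m E lam mu Q omega) (he : HasEulerProduct a)
    {ρ : ℂ} (hρ : E ρ = 0) : ρ.re ≤ 1 := not_lt.1 fun hlt => by
  rw [h.eq_series ρ hlt, mul_eq_zero] at hρ
  rcases hρ with h1 | h1
  · rw [sub_eq_zero.1 (eq_zero_of_pow_eq_zero h1), one_re] at hlt
    exact lt_irrefl _ hlt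
  · exact lSeries_ne_zero he hlt (h.summable ρ hlt) h1

theorem finite_winSet (h : HasFunctionalEquation a m E lam mu Q omega) (he : HasEulerProduct a)
    (σ T : ℝ) : (winSet E σ T).Finite :=
  (finite_boxZeros h.differentiable (FA.SelbergZeroCount.order_ne_top h.differentiable
    (exists_ne_zero h he)) σ 1 (|T| + 1)).subset fun ρ ⟨h0, h1, h2⟩ =>
      ⟨h0, h1, re_le_one_of_zero h he h0, by linarith [abs_sub_abs_le_abs_sub ρ.im T]⟩

theorem winCount_eq_sum (h : HasFunctionalEquation a m E lam mu Q omega) (he : HasEulerProduct a)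
    (σ T : ℝ) :
    winCount E σ T = ∑ ρ ∈ (finite_winSet h he σ T).toFinset, analyticOrderNatAt E ρ :=
  finsum_mem_eq_finite_toFinset_sum _ _

theorem sum_le_winCount (h : HasFunctionalEquation a m E lam mu Q omega) (he : HasEulerProduct a)
    {σ T : ℝ} {F : Finset ℂ} (hF : ∀ ρ ∈ F, ρ ∈ winSet E σ T) :
    ∑ ρ ∈ F, analyticOrderNatAt E ρ ≤ winCount E σ T := by
  rw [winCount_eq_sum h he]
  exact Finset.sum_le_sum_of_subset fun ρ hρ => (Set.Finite.mem_toFinset _).2 (hF ρ hρ)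

theorem winCount_mono (h : HasFunctionalEquation a m E lam mu Q omega) (he : HasEulerProduct a)
    {σ σ' T : ℝ} (hσ : σ ≤ σ') : winCount E σ' T ≤ winCount E σ T := by
  rw [winCount_eq_sum h he σ' T]
  refine sum_le_winCount h he fun ρ hρ => ?_
  obtain ⟨h0, h1, h2⟩ := (Set.Finite.mem_toFinset _).1 hρ
  exact ⟨h0, hσ.trans h1, h2⟩

theorem sum_le_sum_cover {ι κ : Type*} (F : Finset ι) (J : Finset κ) (P : κ → ι → Prop)
    [∀ j, DecidablePred (P j)] (w : ι → ℕ) (hcov : ∀ x ∈ F, ∃ j ∈ J, P j x) :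
    ∑ x ∈ F, w x ≤ ∑ j ∈ J, ∑ x ∈ F.filter (P j), w x := by
  simp only [Finset.sum_filter]
  rw [Finset.sum_comm]
  refine Finset.sum_le_sum fun x hx => ?_
  obtain ⟨j, hj, hP⟩ := hcov x hx
  exact le_of_eq_of_le (if_pos hP).symm (Finset.single_le_sum
    (f := fun j => if P j x then w x else 0) (fun _ _ => Nat.zero_le _) hj)

/-- A half open interval is covered by steps. -/
theorem exists_step {x h : ℝ} {K : ℕ} (hx : 0 ≤ x) (hh : 0 < h) (hK : x ≤ K * h) :
    ∃ j ∈ Finset.range (K + 1), |x - j * h| ≤ h := by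
  refine ⟨⌊x / h⌋₊, Finset.mem_range.2 (Nat.lt_succ_of_le (Nat.floor_le_of_le ?_)), ?_⟩
  · rwa [div_le_iff₀ hh]
  · have h1 := Nat.floor_le (div_nonneg hx hh.le)
    have h2 := Nat.lt_floor_add_one (x / h)
    rw [le_div_iff₀ hh] at h1
    rw [div_lt_iff₀ hh] at h2
    rw [abs_le]
    constructor <;> nlinarith

theorem order_shift (h : HasFunctionalEquation a m E lam mu Q omega) {c ρ : ℂ} (hρ : ρ ≠ 1) :
    analyticOrderNatAt (fun z => lVal E m (c + z)) (ρ - c) = analyticOrderNatAt E ρ := by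
  have h' := analyticOrderAt_comp_of_deriv_ne_zero (f := lVal E m)
    (g := fun z : ℂ => c + z) (z₀ := ρ - c) (by fun_prop) (by simp)
  rw [show c + (ρ - c) = ρ by ring] at h'
  exact (congrArg ENat.toNat h').trans (order_div_pow h hρ)

/-- The zeros on a disc, and the factor without zeros. -/
theorem exists_disc (h : HasFunctionalEquation a m E lam mu Q omega) {c : ℂ} {R r₀ r₁ B : ℝ}
    (h1 : 0 < r₁) (hr : r₁ < r₀) (hR : r₀ < R) (hc : R ≤ |c.im|) (h0 : lVal E m c ≠ 0)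
    (hb : ∀ z : ℂ, ‖z‖ = r₀ → ‖lVal E m (c + z)‖ ≤ B * ‖lVal E m c‖) :
    ∃ (Z : Multiset ℂ) (g : ℂ → ℂ), DifferentiableOn ℂ g (ball 0 R) ∧
      (∀ z, lVal E m (c + z) = rootProd Z z * g z) ∧ (∀ ρ ∈ Z, ‖ρ‖ ≤ r₁) ∧
      (∀ z : ℂ, ‖z‖ ≤ r₁ → g z ≠ 0) ∧
      (Multiset.card Z : ℝ) * Real.log (r₀ / r₁) ≤ Real.log B ∧
      ∀ ρ : ℂ, ‖ρ - c‖ ≤ r₁ → analyticOrderNatAt E ρ = Z.count (ρ - c) := by
  have hne : ∀ z : ℂ, ‖z‖ < R → c + z ≠ 1 := fun z hz e => by
    have := congrArg Complex.im e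
    rw [add_im, one_im] at this
    have := Complex.abs_im_le_norm z
    rw [show z.im = -c.im by linarith, abs_neg] at this
    linarith
  have hd : DifferentiableOn ℂ (fun z => lVal E m (c + z)) (ball 0 R) := fun z hz =>
    ((differentiableAt_lVal h (hne z (mem_ball_zero_iff.1 hz))).comp z
      (differentiableAt_id.const_add c)).differentiableWithinAt
  obtain ⟨Z, g, hg, he, hZ, hne', hcard, hord⟩ := FA.RiemannMangoldt.exists_factor (r := r₀)
    (B := B) isOpen_ball (closedBall_subset_ball hR) h1 hr hd (by simpa using h0)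
    (fun z hz => by simpa using hb z (mem_sphere_zero_iff_norm.1 hz))
  refine ⟨Z, g, hg, he, fun ρ hρ => mem_closedBall_zero_iff.1 (hZ ρ hρ),
    fun z hz => hne' z (mem_closedBall_zero_iff.2 hz), ?_, fun ρ hρ => ?_⟩
  · rw [← Real.log_pow]
    exact Real.log_le_log (pow_pos (div_pos (h1.trans hr) h1) _) hcard
  · rw [← hord (ρ - c) (mem_closedBall_zero_iff.2 hρ), order_shift h]
    intro e
    refine hne (ρ - c) (by linarith) ?_
    rw [add_sub_cancel, e]

/-- **Lindelöf's bound gives `o (log |T|)` zeros in the windows.** -/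
theorem zerosSparse_of_lindelof (h : HasFunctionalEquation a m E lam mu Q omega)
    (he : HasEulerProduct a) (hL : ∀ ε : ℝ, 0 < ε → LineLe (lVal E m) (1 / 2) ε) :
    ZerosSparse E := by
  classical
  intro σ' hσ' η hη
  obtain ⟨σ, hσdef⟩ : ∃ σ, σ = min σ' 1 := ⟨_, rfl⟩
  have hσ : 1 / 2 < σ := hσdef ▸ lt_min hσ' (by norm_num)
  have hσ1 : σ ≤ 1 := hσdef ▸ min_le_right _ _
  obtain ⟨σ₀, h2, hlow⟩ := exists_right_lower h he.map_one
  obtain ⟨d, hd⟩ : ∃ d, d = (σ - 1 / 2) / 2 := ⟨_, rfl⟩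
  have hd0 : 0 < d := by linarith
  obtain ⟨r₀, hr₀⟩ : ∃ r₀, r₀ = σ₀ - 1 / 2 := ⟨_, rfl⟩
  obtain ⟨q, hq⟩ : ∃ q, q = Real.log (r₀ / (r₀ - d)) := ⟨_, rfl⟩
  have hq0 : 0 < q := hq ▸ Real.log_pos (by rw [one_lt_div (by linarith)]; linarith)
  obtain ⟨K, hK⟩ : ∃ K, K = ⌈2 / d⌉₊ := ⟨_, rfl⟩
  obtain ⟨ε, hεd⟩ : ∃ ε, ε = η * q / (2 * (K + 1)) := ⟨_, rfl⟩
  have hε : 0 < ε := hεd ▸ by positivity
  obtain ⟨C, hC, hb⟩ := exists_half_plane h hL hε
  obtain ⟨c₁, hc₁⟩ : ∃ c₁, c₁ = Real.log (2 * (C + 1)) + ε * Real.log 4 := ⟨_, rfl⟩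
  refine ⟨max (σ₀ + 3) (Real.exp (2 * (K + 1) * c₁ / (η * q))), fun T hT => ?_⟩
  have hT₀ : σ₀ + 3 ≤ |T| := (le_max_left _ _).trans hT
  have hlog : 2 * (K + 1) * c₁ / (η * q) ≤ Real.log |T| :=
    (Real.le_log_iff_exp_le (by linarith)).2 ((le_max_right _ _).trans hT)
  rw [div_le_iff₀ (by positivity)] at hlog
  have key : ∀ j ∈ Finset.range (K + 1), ∀ F : Finset ℂ,
      (∀ ρ ∈ F, ρ ∈ winSet E σ T ∧ |ρ.im - (T - 1 + j * d)| ≤ d) →
      ((∑ ρ ∈ F, analyticOrderNatAt E ρ : ℕ) : ℝ) * q ≤ c₁ + ε * Real.log |T| := by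
    intro j hj F hF
    have hjd : (j : ℝ) * d ≤ 2 + d := by
      have h5 : (j : ℝ) ≤ K := by exact_mod_cast Nat.lt_succ_iff.1 (Finset.mem_range.1 hj)
      have h6 := Nat.ceil_lt_add_one (show 0 ≤ 2 / d by positivity)
      rw [← hK] at h6
      have h7 := mul_le_mul_of_nonneg_right (h5.trans h6.le) hd0.le
      rwa [add_mul, div_mul_cancel₀ _ hd0.ne', one_mul] at h7
    obtain ⟨y, hy⟩ : ∃ y, y = T - 1 + j * d := ⟨_, rfl⟩
    have hy1 : |T| - 2 ≤ |y| := by
      have := abs_sub_abs_le_abs_sub T y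
      have : |T - y| ≤ 2 := abs_le.2
        ⟨by linarith, by linarith [mul_nonneg (Nat.cast_nonneg j : (0 : ℝ) ≤ j) hd0.le]⟩
      linarith
    have hy2 : |y| ≤ |T| + 2 := by
      have := abs_sub_abs_le_abs_sub y T
      have : |y - T| ≤ 2 := abs_le.2
        ⟨by linarith [mul_nonneg (Nat.cast_nonneg j : (0 : ℝ) ≤ j) hd0.le], by linarith⟩
      linarith
    obtain ⟨c, hc⟩ : ∃ c, c = pt σ₀ y := ⟨_, rfl⟩
    have hcre : c.re = σ₀ := by rw [hc, pt_re]
    have hcim : c.im = y := by rw [hc, pt_im]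
    have hlowc : 1 / 2 ≤ ‖lVal E m c‖ := by
      rw [lVal_eq_series h (by linarith)]
      exact (hlow c hcre.ge).trans (Complex.re_le_norm _)
    have hy4 : (0 : ℝ) < 4 * |T| := by linarith
    obtain ⟨Z, g, -, -, -, -, hcard, hord⟩ := exists_disc h (c := c) (R := r₀ + 1) (r₀ := r₀)
      (r₁ := r₀ - d) (B := 2 * (C + 1) * (4 * |T|) ^ ε) (by linarith) (by linarith) (by linarith)
      (by rw [hcim]; linarith) (norm_pos_iff.1 (lt_of_lt_of_le one_half_pos hlowc))
      fun z hz => by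
        have k1 := abs_le.1 ((Complex.abs_re_le_norm z).trans hz.le)
        have k2 := (Complex.abs_im_le_norm z).trans hz.le
        have k3 : |y| - r₀ ≤ |y + z.im| := by
          have := abs_sub_abs_le_abs_sub y (-z.im)
          rw [sub_neg_eq_add, abs_neg] at this
          linarith
        have k4 : |y + z.im| ≤ 4 * |T| := (abs_add_le _ _).trans (by linarith)
        have e : pt (σ₀ + z.re) (y + z.im) = c + z := by
          apply Complex.ext <;> simp [hc, pt]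
        have k5 := hb (σ₀ + z.re) (y + z.im) (by linarith) (by linarith)
        rw [e] at k5
        calc ‖lVal E m (c + z)‖ ≤ C * (4 * |T|) ^ ε :=
              k5.trans (mul_le_mul_of_nonneg_left (Real.rpow_le_rpow (abs_nonneg _) k4 hε.le) hC)
          _ ≤ 2 * (C + 1) * (4 * |T|) ^ ε * (1 / 2) := by
              linarith [Real.rpow_nonneg hy4.le ε]
          _ ≤ _ := mul_le_mul_of_nonneg_left hlowc (by positivity)
    rw [Real.log_mul (by positivity) (Real.rpow_pos_of_pos hy4 ε).ne', Real.log_rpow hy4,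
      Real.log_mul (by norm_num : (4 : ℝ) ≠ 0) (by linarith),
      show Real.log (2 * (C + 1)) + ε * (Real.log 4 + Real.log |T|) = c₁ + ε * Real.log |T| by
        rw [hc₁]; ring, ← hq] at hcard
    refine le_trans (mul_le_mul_of_nonneg_right ?_ hq0.le) hcard
    have hle : ∀ ρ ∈ F, analyticOrderNatAt E ρ = Z.count (ρ - c) := fun ρ hρ => by
      obtain ⟨⟨h0, hre, -⟩, him⟩ := hF ρ hρ
      have hre1 := re_le_one_of_zero h he h0
      refine hord ρ ((norm_le_abs_re_add_abs_im _).trans ?_)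
      rw [sub_re, sub_im, hcre, hcim, abs_of_nonpos (by linarith), hy]
      linarith
    rw [Nat.cast_le, Finset.sum_congr rfl hle,
      ← Finset.sum_image (f := fun x => Z.count x) fun x _ y _ e => sub_left_injective e,
      ← Multiset.sum_count_eq_card (s := F.image (· - c) ∪ Z.toFinset)
        fun x hx => Finset.mem_union_right _ (Multiset.mem_toFinset.2 hx)]
    exact Finset.sum_le_sum_of_subset Finset.subset_union_left
  have hmono := winCount_mono h he (T := T) (show σ ≤ σ' from hσdef ▸ min_le_left _ _)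
  obtain ⟨S, hS⟩ : ∃ S, S = (finite_winSet h he σ T).toFinset := ⟨_, rfl⟩
  have hmem : ∀ ρ ∈ S, ρ ∈ winSet E σ T := fun ρ hρ => (Set.Finite.mem_toFinset _).1 (hS ▸ hρ)
  have hcov := sum_le_sum_cover S (Finset.range (K + 1))
    (fun j ρ => |ρ.im - (T - 1 + j * d)| ≤ d) (analyticOrderNatAt E) fun ρ hρ => by
      obtain ⟨-, -, him⟩ := hmem ρ hρ
      rw [abs_le] at him
      obtain ⟨j, hj, hjd⟩ := exists_step (x := ρ.im - (T - 1)) (K := K) (by linarith) hd0 (by
        have h6 := Nat.le_ceil (2 / d)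
        rw [← hK, div_le_iff₀ hd0] at h6
        linarith)
      exact ⟨j, hj, by rwa [sub_sub] at hjd⟩
  rw [hS, ← winCount_eq_sum h he σ T, ← hS] at hcov
  have hsum : (winCount E σ T : ℝ) * q ≤ (K + 1) * (c₁ + ε * Real.log |T|) := by
    refine (mul_le_mul_of_nonneg_right (Nat.cast_le.2 hcov) hq0.le).trans ?_
    rw [Nat.cast_sum, Finset.sum_mul]
    refine (Finset.sum_le_sum fun j hj => key j hj _ fun ρ hρ => ?_).trans ?_
    · rw [Finset.mem_filter] at hρ
      exact ⟨hmem ρ hρ.1, hρ.2⟩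
    · rw [Finset.sum_const, Finset.card_range, nsmul_eq_mul, Nat.cast_succ]
  refine le_of_mul_le_mul_right ((mul_le_mul_of_nonneg_right (Nat.cast_le.2 hmono) hq0.le).trans
    (hsum.trans ?_)) hq0
  have e : (K + 1) * (ε * Real.log |T|) = η * q * Real.log |T| / 2 := by
    rw [hεd]
    field_simp
  rw [mul_add, e]
  linarith

end FA.SelbergLindelof

end
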